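import Fermat.Agent.S55.LOC.Nrm.Conc

/-!
# S55-LOC (NRM layer) : uniformiser and residue field of a proper ultrametric field, in terms of
the norm only (no reference to `𝒪[K]` in the statements)
-/

namespace Fermat.Agent.S55.LOC

open scoped NormedField Valued
open Valued.integer

variable (K : Type*) [NontriviallyNormedField K] [IsUltrametricDist K] [ProperSpace K]

omit [ProperSpace K] in
theorem Data_mem_maximalIdeal_iff {K : Type*} [NontriviallyNormedField K] [IsUltrametricDist K]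
    (x : 𝒪[K]) : x ∈ 𝓂[K] ↔ ‖(x : K)‖ < 1 := by
  rw [IsLocalRing.mem_maximalIdeal, mem_nonunits_iff, isUnit_iff_norm_eq_one]
  have h1 : ‖(x : K)‖ ≤ 1 := norm_le_one x
  constructor
  · intro h
    exact lt_of_le_of_ne h1 h
  · intro h
    exact h.ne

/-- (D1) a uniformiser: its norm is the largest norm `< 1` and generates the value group. -/
theorem exists_unif_norm : ∃ π : K, π ≠ 0 ∧ ‖π‖ < 1 ∧ (∀ x : K, ‖x‖ < 1 → ‖x‖ ≤ ‖π‖) ∧
    ∀ a : K, a ≠ 0 → ∃ m : ℤ, ‖a‖ = ‖π‖ ^ m := by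
  obtain ⟨ϖ, hϖ⟩ := IsDiscreteValuationRing.exists_irreducible 𝒪[K]
  have hint : ∀ a : K, a ≠ 0 → ‖a‖ ≤ 1 → ∃ m : ℕ, ‖a‖ = ‖(ϖ : K)‖ ^ m := by
    intro a ha h1
    have ha' : (⟨a, mem_iff.2 h1⟩ : 𝒪[K]) ≠ 0 := fun h => ha (congrArg Subtype.val h)
    obtain ⟨n, u, hu⟩ := IsDiscreteValuationRing.eq_unit_mul_pow_irreducible ha' hϖ
    refine ⟨n, ?_⟩
    have h2 : a = ((u : 𝒪[K]) : K) * (ϖ : K) ^ n := congrArg Subtype.val hu
    rw [h2, norm_mul, norm_pow, norm_coe_unit, one_mul]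
  refine ⟨(ϖ : K), ?_, norm_irreducible_lt_one hϖ, ?_, ?_⟩
  · intro h
    exact hϖ.ne_zero (Subtype.ext h)
  · intro x hx
    have hx' : (⟨x, mem_iff.2 hx.le⟩ : 𝒪[K]) ∈ (𝓂[K] : Set 𝒪[K]) :=
      (Data_mem_maximalIdeal_iff _).2 hx
    rw [hϖ.maximalIdeal_eq_closedBall, mem_closedBall_zero_iff] at hx'
    exact hx'
  · intro a ha
    rcases le_total ‖a‖ 1 with h1 | h1
    · obtain ⟨m, hm⟩ := hint a ha h1
      exact ⟨m, by rw [hm, zpow_natCast]⟩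
    · obtain ⟨m, hm⟩ := hint a⁻¹ (inv_ne_zero ha) (by
        rw [norm_inv]; exact inv_le_one_of_one_le₀ h1)
      refine ⟨-m, ?_⟩
      rw [zpow_neg, zpow_natCast, ← hm, norm_inv, inv_inv]

theorem one_lt_resCard : 1 < resCard K := by
  unfold resCard
  exact Finite.one_lt_card

variable {K}

/-- (D2) `x^Q ≡ x mod 𝔪`. -/
theorem norm_pow_resCard_sub_lt {x : K} (hx : ‖x‖ ≤ 1) : ‖x ^ resCard K - x‖ < 1 := by
  have : Fintype 𝓀[K] := Fintype.ofFinite _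
  set y : 𝒪[K] := ⟨x, mem_iff.2 hx⟩ with hy
  have h1 : y ^ resCard K - y ∈ 𝓂[K] := by
    rw [← IsLocalRing.residue_eq_zero_iff, map_sub, map_pow, resCard, Nat.card_eq_fintype_card,
      FiniteField.pow_card, sub_self]
  exact (Data_mem_maximalIdeal_iff _).1 h1

variable (K)

/-- (D3) a system of representatives of the residue field. -/
theorem exists_reps : ∃ R : Finset K, R.card = resCard K ∧ (∀ r ∈ R, ‖r‖ ≤ 1) ∧
    (∀ r ∈ R, ∀ r' ∈ R, r ≠ r' → ‖r - r'‖ = 1) ∧ ∀ x : K, ‖x‖ ≤ 1 → ∃ r ∈ R, ‖x - r‖ < 1 := by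
  classical
  have : Fintype 𝓀[K] := Fintype.ofFinite _
  choose s hs using (IsLocalRing.residue_surjective (R := 𝒪[K]))
  have hinj : Function.Injective (fun c : 𝓀[K] => ((s c : 𝒪[K]) : K)) := by
    intro c c' h
    have h' : s c = s c' := Subtype.ext h
    rw [← hs c, ← hs c', h']
  refine ⟨Finset.univ.image (fun c : 𝓀[K] => ((s c : 𝒪[K]) : K)), ?_, ?_, ?_, ?_⟩
  · rw [Finset.card_image_of_injective _ hinj, Finset.card_univ, resCard,
      Nat.card_eq_fintype_card]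
  · intro r hr
    obtain ⟨c, -, rfl⟩ := Finset.mem_image.1 hr
    exact norm_le_one (s c)
  · intro r hr r' hr' hne
    obtain ⟨c, -, rfl⟩ := Finset.mem_image.1 hr
    obtain ⟨c', -, rfl⟩ := Finset.mem_image.1 hr'
    have hcc : c ≠ c' := fun h => hne (by rw [h])
    have hu : IsUnit (s c - s c') := by
      by_contra hnu
      have h1 : s c - s c' ∈ 𝓂[K] := hnu
      rw [← IsLocalRing.residue_eq_zero_iff, map_sub, hs, hs, sub_eq_zero] at h1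
      exact hcc h1
    exact isUnit_iff_norm_eq_one.1 hu
  · intro x hx
    refine ⟨_, Finset.mem_image_of_mem _ (Finset.mem_univ
      (IsLocalRing.residue 𝒪[K] ⟨x, mem_iff.2 hx⟩)), ?_⟩
    have h1 : (⟨x, mem_iff.2 hx⟩ : 𝒪[K]) - s (IsLocalRing.residue 𝒪[K] ⟨x, mem_iff.2 hx⟩) ∈
        𝓂[K] := by
      rw [← IsLocalRing.residue_eq_zero_iff, map_sub, hs, sub_self]
    exact (Data_mem_maximalIdeal_iff _).1 h1

/-- `#(𝒪/𝔪^e) = Q^e`. -/
theorem card_quot_maximalIdeal_pow (e : ℕ) :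
    Nat.card (𝒪[K] ⧸ 𝓂[K] ^ e) = resCard K ^ e := by
  have h := cardQuot_pow_of_prime (P := 𝓂[K]) (IsDiscreteValuationRing.not_a_field 𝒪[K]) (i := e)
  rw [Submodule.cardQuot_apply, Submodule.cardQuot_apply] at h
  exact h

/-- the ideal generated by `a` is `𝔪^e` if `‖a‖ = ‖π‖^e`. -/
theorem span_eq_maximalIdeal_pow {π : K} (h1 : ‖π‖ < 1) (hmax : ∀ x : K, ‖x‖ < 1 → ‖x‖ ≤ ‖π‖)
    (a : 𝒪[K]) (e : ℕ) (ha : ‖(a : K)‖ = ‖π‖ ^ e) : Ideal.span {a} = 𝓂[K] ^ e := by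
  obtain ⟨ϖ, hϖ⟩ := IsDiscreteValuationRing.exists_irreducible 𝒪[K]
  have hle : ‖(ϖ : K)‖ ≤ ‖π‖ := hmax _ (norm_irreducible_lt_one hϖ)
  have hge : ‖π‖ ≤ ‖(ϖ : K)‖ := by
    have hx' : (⟨π, mem_iff.2 h1.le⟩ : 𝒪[K]) ∈ (𝓂[K] : Set 𝒪[K]) :=
      (Data_mem_maximalIdeal_iff _).2 h1
    rw [hϖ.maximalIdeal_eq_closedBall, mem_closedBall_zero_iff] at hx'
    exact hx'
  have heq : ‖π‖ = ‖ϖ‖ := le_antisymm hge hle
  apply SetLike.coe_injective
  rw [coe_span_singleton_eq_closedBall, hϖ.maximalIdeal_pow_eq_closedBall_pow, ← heq, ← ha]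
  rfl

end Fermat.Agent.S55.LOC
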