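import Fermat.Agent.S55.LOC.Nrm.Padic
import Fermat.Agent.S55.LOC.Alg.PowIndex

/-!
# S55-LOC (NRM layer) : `[Kˣ : Kˣ^p] = #μ_p(K) · p · p^[K:ℚ_p]` (`q = p`), `#μ_p(K) · p` (`q ≠ p`)
-/

namespace Fermat.Agent.S55.LOC

open scoped NormedField Valued
open Valued.integer

variable (q : ℕ) [Fact q.Prime]
  (K : Type*) [NontriviallyNormedField K] [IsUltrametricDist K] [ProperSpace K]
  [NormedAlgebra ℚ_[q] K] [FiniteDimensional ℚ_[q] K]

/-- **(A′)** -/
theorem index_pow_units_nrm (p : ℕ) (hp : p.Prime) :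
    (powMonoidHom p : Kˣ →* Kˣ).range.index =
      Nat.card (powMonoidHom p : Kˣ →* Kˣ).ker * p *
        (if p = q then p else 1) ^ Module.finrank ℚ_[q] K := by
  have hK : CharZero K := charZero_of_injective_algebraMap (algebraMap ℚ_[q] K).injective
  have hO : CharZero 𝒪[K] :=
    ⟨fun a b h => Nat.cast_injective (R := K) (by simpa using congrArg (Subtype.val) h)⟩
  rw [index_pow_units_field 𝒪[K] K p hp]
  congr 1
  split_ifs with h
  · subst h
    exact card_quot_span_q p K
  · rw [one_pow]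
    exact card_quot_span_of_ne q K p hp h

end Fermat.Agent.S55.LOC
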