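import Fermat.Agent.S55.LOC.Nrm.Data
import Fermat.Agent.S55.LOC.Alg.Free

/-!
# S55-LOC (NRM layer) : finite extensions of `ℚ_q` : `#(𝒪/q𝒪) = q^[K:ℚ_q]`, `e f = [K:ℚ_q]`
-/

set_option linter.style.haveILetI false
set_option linter.unusedSectionVars false

namespace Fermat.Agent.S55.LOC

open scoped NormedField Valued
open Valued.integer

variable (q : ℕ) [Fact q.Prime]
  (K : Type*) [NontriviallyNormedField K] [IsUltrametricDist K] [ProperSpace K]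
  [NormedAlgebra ℚ_[q] K] [FiniteDimensional ℚ_[q] K]

omit [ProperSpace K] [FiniteDimensional ℚ_[q] K] in
/-- the structure map `ℤ_q → 𝒪[K]`. -/
noncomputable def Padic_intHom : ℤ_[q] →+* 𝒪[K] :=
  ((algebraMap ℚ_[q] K).comp PadicInt.Coe.ringHom).codRestrict 𝒪[K] (fun x => by
    rw [Valued.integer.mem_iff, RingHom.comp_apply, norm_algebraMap']
    exact x.2)

omit [ProperSpace K] [FiniteDimensional ℚ_[q] K] in
theorem Padic_coe_intHom (a : ℤ_[q]) :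
    ((Padic_intHom q K a : 𝒪[K]) : K) = algebraMap ℚ_[q] K (a : ℚ_[q]) := rfl

omit [ProperSpace K] in
theorem Padic_finite :
    letI : Algebra ℤ_[q] 𝒪[K] := (Padic_intHom q K).toAlgebra
    Module.Finite ℤ_[q] 𝒪[K] := by
  letI : Algebra ℤ_[q] 𝒪[K] := (Padic_intHom q K).toAlgebra
  have hq1 : (1 : ℝ) < q := by exact_mod_cast (Fact.out : q.Prime).one_lt
  have hq0 : (0 : ℝ) < q := by linarith
  let b := Module.finBasis ℚ_[q] K
  let c : K →L[ℚ_[q]] (Fin (Module.finrank ℚ_[q] K) → ℚ_[q]) :=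
    LinearMap.toContinuousLinearMap b.equivFun.toLinearMap
  obtain ⟨N, hN⟩ : ∃ N : ℕ, ‖c‖ < (q : ℝ) ^ N := pow_unbounded_of_one_lt _ hq1
  have hmem : ∀ (x : 𝒪[K]) i, ‖(q : ℚ_[q]) ^ N * c (x : K) i‖ ≤ 1 := by
    intro x i
    rw [norm_mul, norm_pow, Padic.norm_p]
    have h1 : ‖c (x : K) i‖ ≤ ‖c (x : K)‖ := norm_le_pi_norm _ i
    have h2 : ‖c (x : K)‖ ≤ ‖c‖ * ‖(x : K)‖ := c.le_opNorm _
    have h3 : ‖(x : K)‖ ≤ 1 := Valued.integer.mem_iff.1 x.2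
    have h4 : ‖c (x : K) i‖ ≤ (q : ℝ) ^ N := by
      calc ‖c (x : K) i‖ ≤ ‖c‖ * ‖(x : K)‖ := h1.trans h2
        _ ≤ ‖c‖ * 1 := by gcongr
        _ ≤ (q : ℝ) ^ N := by rw [mul_one]; exact hN.le
    calc ((q : ℝ)⁻¹) ^ N * ‖c (x : K) i‖ ≤ ((q : ℝ)⁻¹) ^ N * (q : ℝ) ^ N := by gcongr
      _ = 1 := by rw [← mul_pow, inv_mul_cancel₀ hq0.ne', one_pow]
  let φ : 𝒪[K] →ₗ[ℤ_[q]] (Fin (Module.finrank ℚ_[q] K) → ℤ_[q]) :=
    { toFun := fun x i => ⟨(q : ℚ_[q]) ^ N * c (x : K) i, hmem x i⟩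
      map_add' := by
        intro x y
        funext i
        apply Subtype.ext
        change (q : ℚ_[q]) ^ N * c ((x + y : 𝒪[K]) : K) i =
          (q : ℚ_[q]) ^ N * c (x : K) i + (q : ℚ_[q]) ^ N * c (y : K) i
        have h : ((x + y : 𝒪[K]) : K) = (x : K) + y := rfl
        rw [h, map_add, Pi.add_apply, mul_add]
      map_smul' := by
        intro a x
        funext i
        apply Subtype.ext
        have h : ((a • x : 𝒪[K]) : K) = (a : ℚ_[q]) • (x : K) := by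
          rw [Algebra.smul_def, Algebra.smul_def]
          rfl
        change (q : ℚ_[q]) ^ N * c ((a • x : 𝒪[K]) : K) i =
          (a : ℚ_[q]) * ((q : ℚ_[q]) ^ N * c (x : K) i)
        rw [h, map_smul, Pi.smul_apply, smul_eq_mul]
        ring }
  refine Module.Finite.of_injective φ ?_
  intro x y hxy
  apply Subtype.ext
  apply b.equivFun.injective
  funext i
  have h1 := congrArg (fun v => ((v i : ℤ_[q]) : ℚ_[q])) hxy
  have h2 : (q : ℚ_[q]) ^ N * c (x : K) i = (q : ℚ_[q]) ^ N * c (y : K) i := h1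
  have hq : (q : ℚ_[q]) ^ N ≠ 0 := pow_ne_zero _ (Nat.cast_ne_zero.2 (Fact.out : q.Prime).ne_zero)
  exact mul_left_cancel₀ hq h2

theorem Padic_card_quot_int : Nat.card (ℤ_[q] ⧸ Ideal.span {(q : ℤ_[q])}) = q := by
  rw [← PadicInt.maximalIdeal_eq_span_p]
  exact (Nat.card_congr (PadicInt.residueField (p := q)).toEquiv).trans (Nat.card_zmod q)

/-- `𝒪[K]` is a finite free `ℤ_q`-module of rank `[K:ℚ_q]`; consequence for `#(𝒪/q𝒪)`.
[ring hom `ℤ_[q] → 𝒪[K]`; finiteness: pick a `ℚ_q`-basis `b_i` of `K`; the coordinate maps are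
continuous, hence bounded: `‖b_i^*(x)‖ ≤ C ‖x‖`, so `x ↦ (q^N b_i^*(x))_i` embeds `𝒪[K]` into
`ℤ_q^n` (Noetherian).  Then `card_quot_span_extension ℤ_[q] ℚ_[q] 𝒪[K] K q`.] -/
theorem card_quot_span_q :
    Nat.card (𝒪[K] ⧸ Ideal.span {(q : 𝒪[K])}) = q ^ Module.finrank ℚ_[q] K := by
  letI : Algebra ℤ_[q] 𝒪[K] := (Padic_intHom q K).toAlgebra
  letI : Algebra ℤ_[q] K := ((algebraMap ℚ_[q] K).comp PadicInt.Coe.ringHom).toAlgebra
  haveI : IsScalarTower ℤ_[q] 𝒪[K] K := IsScalarTower.of_algebraMap_eq' rfl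
  haveI : IsScalarTower ℤ_[q] ℚ_[q] K := IsScalarTower.of_algebraMap_eq' rfl
  haveI : Module.Finite ℤ_[q] 𝒪[K] := Padic_finite q K
  have h := card_quot_span_extension ℤ_[q] ℚ_[q] 𝒪[K] K (q : ℤ_[q])
  rw [map_natCast, Padic_card_quot_int] at h
  exact h

omit [ProperSpace K] [FiniteDimensional ℚ_[q] K] in
theorem Padic_norm_natCast (m : ℕ) : ‖(m : K)‖ = ‖(m : ℚ_[q])‖ := by
  rw [← norm_algebraMap' K (m : ℚ_[q]), map_natCast]

omit [ProperSpace K] [FiniteDimensional ℚ_[q] K] in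
/-- a prime `p ≠ q` is a unit. -/
theorem card_quot_span_of_ne (p : ℕ) (hp : p.Prime) (hpq : p ≠ q) :
    Nat.card (𝒪[K] ⧸ Ideal.span {(p : 𝒪[K])}) = 1 := by
  have h1 : ‖(p : K)‖ = 1 := by
    rw [Padic_norm_natCast q K p, Padic.norm_natCast_eq_one_iff]
    exact (Nat.coprime_primes (Fact.out : q.Prime) hp).2 (Ne.symm hpq)
  have h2 : IsUnit (p : 𝒪[K]) := by
    rw [Valued.integer.isUnit_iff_norm_eq_one]
    exact h1
  rw [Ideal.span_singleton_eq_top.2 h2]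
  haveI : Subsingleton (𝒪[K] ⧸ (⊤ : Ideal 𝒪[K])) := Ideal.Quotient.subsingleton_iff.2 rfl
  exact Nat.card_of_subsingleton 0

/-- (D4) `e f = n`. -/
theorem exists_e_f : ∃ e f : ℕ, e * f = Module.finrank ℚ_[q] K ∧ resCard K = q ^ f ∧
    ∀ π : K, ‖π‖ < 1 → (∀ x : K, ‖x‖ < 1 → ‖x‖ ≤ ‖π‖) → ‖π‖ ^ e = (q : ℝ)⁻¹ := by
  have hqp : q.Prime := Fact.out
  have hq1 : (1 : ℝ) < q := by exact_mod_cast hqp.one_lt
  obtain ⟨π₀, hπ0, hπ1, hπmax, hπgen⟩ := exists_unif_norm K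
  have hpos : 0 < ‖π₀‖ := norm_pos_iff.2 hπ0
  have hqK : ‖(q : K)‖ = (q : ℝ)⁻¹ := by rw [Padic_norm_natCast q K q, Padic.norm_p]
  have hqK0 : (q : K) ≠ 0 := by
    intro h
    rw [h, norm_zero] at hqK
    have : (0 : ℝ) < (q : ℝ)⁻¹ := by positivity
    linarith
  obtain ⟨m, hm⟩ := hπgen (q : K) hqK0
  have hlt : ‖π₀‖ ^ m < 1 := by
    rw [← hm, hqK]
    exact inv_lt_one_of_one_lt₀ hq1
  have hm0 : 0 < m := by
    by_contra hcon
    rw [not_lt] at hcon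
    have : 1 ≤ ‖π₀‖ ^ m := one_le_zpow_of_nonpos₀ hpos hπ1.le hcon
    linarith
  obtain ⟨e, rfl⟩ : ∃ e : ℕ, m = e := ⟨m.toNat, (Int.toNat_of_nonneg hm0.le).symm⟩
  rw [zpow_natCast] at hm
  have he0 : e ≠ 0 := by
    rintro rfl
    simp at hm0
  have hspan : Ideal.span {(q : 𝒪[K])} = 𝓂[K] ^ e :=
    span_eq_maximalIdeal_pow K hπ1 hπmax (q : 𝒪[K]) e hm
  have hcard : q ^ Module.finrank ℚ_[q] K = resCard K ^ e := by
    rw [← card_quot_span_q q K, hspan, card_quot_maximalIdeal_pow]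
  have hdvd : resCard K ∣ q ^ Module.finrank ℚ_[q] K := by
    rw [hcard]
    exact dvd_pow_self _ he0
  obtain ⟨f, -, hf⟩ := (Nat.dvd_prime_pow hqp).1 hdvd
  refine ⟨e, f, ?_, hf, ?_⟩
  · rw [hf, ← pow_mul] at hcard
    have := Nat.pow_right_injective hqp.two_le hcard
    rw [this, mul_comm]
  · intro π h1 hmax
    have : ‖π‖ = ‖π₀‖ := le_antisymm (hπmax π h1) (hmax π₀ hπ1)
    rw [this, ← hm, hqK]

end Fermat.Agent.S55.LOC
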