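import Mathlib

/-!
# S55-LOC (NRM layer) : the ring of integers of a proper ultrametric normed field

`K` a nontrivially normed field, ultrametric, proper (= locally compact).  Then
`𝒪[K] = {x | ‖x‖ ≤ 1}` is a compact, adically complete discrete valuation ring with finite residue
field.  (The valuation on `K` is `NormedField.toValued`, activated by `open scoped NormedField`;
the notations `𝒪[K]`, `𝓂[K]`, `𝓀[K]` by `open scoped Valued`.)
-/

namespace Fermat.Agent.S55.LOC

open scoped NormedField Valued
open Valued.integer

variable (K : Type*) [NontriviallyNormedField K] [IsUltrametricDist K]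

noncomputable instance rankOne_v : (Valued.v : Valuation K NNReal).RankOne :=
  inferInstanceAs (NormedField.valuation (K := K)).RankOne

variable [ProperSpace K]

instance compactSpace_integer : CompactSpace 𝒪[K] := by
  have : (𝒪[K] : Set K) = Metric.closedBall 0 1 := by
    ext x; simp [Valued.integer.mem_iff]
  refine isCompact_iff_compactSpace.mp ?_
  rw [this]
  exact isCompact_closedBall 0 1

instance isDiscreteValuationRing_integer : IsDiscreteValuationRing 𝒪[K] :=
  Valued.integer.isDiscreteValuationRing_of_compactSpace

instance finite_residueField_integer : Finite 𝓀[K] :=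
  (compactSpace_iff_completeSpace_and_isDiscreteValuationRing_and_finite_residueField.mp
    (compactSpace_integer K)).2.2

open scoped Pointwise in
instance isAdicComplete_integer : IsAdicComplete 𝓂[K] 𝒪[K] := by
  refine { toIsHausdorff := inferInstance, toIsPrecomplete := ⟨fun f hf => ?_⟩ }
  let S n : Set 𝒪[K] := f n +ᵥ ((𝓂[K] ^ n : Ideal 𝒪[K]) : Set 𝒪[K])
  have hS n : S (n + 1) ⊆ S n := by
    apply (Set.vadd_set_subset_vadd_set_iff.mpr (Ideal.pow_le_pow_right n.le_succ)).trans
    simpa [S] using (hf n.le_succ).symm
  have h n : IsClosed (S n) := (IsNoetherianRing.isClosed_ideal (𝓂[K] ^ n)).vadd (f n)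
  obtain ⟨L, hL⟩ := (h 0).isCompact.nonempty_iInter_of_sequence_nonempty_isCompact_isClosed S hS
    (by simp [S]) h
  refine ⟨L, fun n ↦ ?_⟩
  obtain ⟨y, hy, rfl⟩ := Set.mem_iInter.mp hL n
  simpa [SModEq.sub_mem] using hy

/-- The cardinality of the residue field. -/
noncomputable def resCard (K : Type*) [NontriviallyNormedField K] [IsUltrametricDist K] : ℕ :=
  Nat.card 𝓀[K]

end Fermat.Agent.S55.LOC
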