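import Fermat.Agent.S55.LOC.Nrm.Conc
import Fermat.Agent.S55.LOC.Alg.PowIndex

/-!
# S55-LOC (NRM layer) : the `p`-th powers are open
-/

namespace Fermat.Agent.S55.LOC

open scoped NormedField Valued
open Valued.integer

variable (K : Type*) [NontriviallyNormedField K] [IsUltrametricDist K] [ProperSpace K] [CharZero K]

/-- elements close to `1` are `p`-th powers. -/
theorem exists_pow_eq_of_norm_sub_one_lt (p : ℕ) (hp : p.Prime) :
    ∃ ε : ℝ, 0 < ε ∧ ∀ u : K, ‖u - 1‖ < ε → ∃ y : K, y ^ p = u := by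
  obtain ⟨e, he⟩ := powIndex_exists_span_eq 𝒪[K] p hp
  obtain ⟨ϖ, hϖ⟩ := IsDiscreteValuationRing.exists_irreducible 𝒪[K]
  have hpos : 0 < ‖ϖ‖ := norm_irreducible_pos hϖ
  have hlt : ‖ϖ‖ < 1 := norm_irreducible_lt_one hϖ
  refine ⟨‖ϖ‖ ^ (e + 1 + e), pow_pos hpos _, fun u hu => ?_⟩
  have hle1 : ‖ϖ‖ ^ (e + 1 + e) ≤ 1 := pow_le_one₀ hpos.le hlt.le
  have hx1 : ‖u - 1‖ ≤ 1 := hu.le.trans hle1
  let x : 𝒪[K] := ⟨u - 1, Valued.integer.mem_iff.2 hx1⟩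
  have hx : x ∈ 𝓂[K] ^ (e + 1 + e) := by
    have := hϖ.maximalIdeal_pow_eq_closedBall_pow (e + 1 + e)
    have h2 : x ∈ ((𝓂[K] ^ (e + 1 + e) : Ideal 𝒪[K]) : Set 𝒪[K]) := by
      rw [this]
      simp only [Metric.mem_closedBall, dist_zero_right]
      exact hu.le
    exact h2
  obtain ⟨v, hv, hvx⟩ := exists_unitFil_eq_one_add (n := e + 1 + e) (by omega) hx
  obtain ⟨w, _, hw⟩ := exists_pow_eq_of_mem_unitFil hp he (n := e + 1) (by omega) hv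
  refine ⟨((w : 𝒪[K]) : K), ?_⟩
  have h3 : ((w : 𝒪[K]) : K) ^ p = ((v : 𝒪[K]) : K) := by
    rw [← hw]; simp
  rw [h3, hvx]
  simp [x]

end Fermat.Agent.S55.LOC
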